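import Fermat.Agent.Top.Modular
import Fermat.Agent.RT.Frey.Lowering
import Fermat.Agent.Results.S02
import Mathlib.NumberTheory.FLT.Three

/-!
# The endgame from the inputs of the two-adic route
-/

set_option autoImplicit false

open WeierstrassCurve WeierstrassCurve.Affine WeierstrassCurve.Affine.Point
open CuspForm

namespace Fermat.Agent.Top

/-- The statement of milestone 45. -/
theorem level_lowering_to_two (h43 : RT.Frey.LowerOddInput) (h44 : RT.Frey.LowerAtPInput)
    (hsw : SwitchInput) (hfam : FamilyInput) (htwo : TwoAdicInput)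
    (hlift : LiftingSquarefreeInput) (P : FreyPackage)
    (hirr : GaloisRepIsIrreducible (K := AlgebraicClosure ℚ) ℚ P.freyCurve P.p) :
    ∃ f : CuspForm (CongruenceSubgroup.Gamma0 2) 2, f ≠ 0 :=
  RT.Frey.exists_form_two h43 h44 P hirr (exists_conductorLevel hsw hfam htwo hlift P)

/-- The statement of milestone 3. -/
theorem false_of_freyPackage (h43 : RT.Frey.LowerOddInput) (h44 : RT.Frey.LowerAtPInput)
    (h09 : IrreducibleInput) (hsw : SwitchInput) (hfam : FamilyInput) (htwo : TwoAdicInput)
    (hlift : LiftingSquarefreeInput) (P : FreyPackage) : False := by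
  obtain ⟨f, hf⟩ := level_lowering_to_two h43 h44 hsw hfam htwo hlift P (h09 P)
  exact hf (Results.S07.result f)

/-- The statement of milestone 1. -/
theorem fermat (h43 : RT.Frey.LowerOddInput) (h44 : RT.Frey.LowerAtPInput)
    (h09 : IrreducibleInput) (hsw : SwitchInput) (hfam : FamilyInput) (htwo : TwoAdicInput)
    (hlift : LiftingSquarefreeInput) (n : ℕ) (hn : 3 ≤ n) (a b c : ℕ)
    (ha : 0 < a) (hb : 0 < b) (hc : 0 < c) : a ^ n + b ^ n ≠ c ^ n := by
  refine FermatLastTheorem.of_odd_primes (fun q hq hodd => ?_) n hn a b c ha.ne' hb.ne' hc.ne'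
  rcases lt_or_ge q 5 with hlt | hge
  · obtain rfl : q = 3 := by
      obtain ⟨k, rfl⟩ := hodd
      have := hq.two_le
      omega
    exact fermatLastTheoremThree
  · rw [fermatLastTheoremFor_iff_int]
    intro x y z hx hy hz h
    obtain ⟨P⟩ := Results.S02.result x y z hx hy hz q hq hge h
    exact false_of_freyPackage h43 h44 h09 hsw hfam htwo hlift P

end Fermat.Agent.Top
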