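import Fermat.Agent.Top.Route
import Fermat.Agent.Top.Fermat
import Fermat.Agent.Results.S09
import Fermat.Agent.Results.S44
import Fermat.Agent.Lifting.Main
import Fermat.Agent.RT.Lower.Main

/-!
# The inputs of the route are theorems
-/

set_option autoImplicit false

namespace Fermat.Agent.Top

theorem irreducible_holds : IrreducibleInput := Results.S09.result

theorem lowerAtP_holds : RT.Frey.LowerAtPInput := Results.S44.result

theorem lifting_holds : LiftingSquarefreeInput := Lifting.liftingSquarefreeInput

theorem lowerOdd_holds : RT.Frey.LowerOddInput := RT.Lower.lowerOddInput

end Fermat.Agent.Top
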