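import Fermat.Agent.RT.Frey.Inputs
import Fermat.Agent.TwoAdic.Curve.Basic

/-!
# The named inputs of the route through a two-adic lifting theorem

The Frey curve `E` is congruent mod `5` to a curve `W'`, which is congruent mod `3` to a curve
`W''` that the two-adic theorem proves modular at its conductor level. Lifting at `3` and at `5`
then transports modularity back to `E`.
-/

set_option autoImplicit false

open WeierstrassCurve

namespace Fermat.Agent.Top

/-- A semistable model, multiplicative at `2`, with irreducible mod 3 representation. -/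
structure IsSwitchedModel (W : WeierstrassCurve ℤ) : Prop where
  ne_zero : W.Δ ≠ 0
  semistable : W.IsSemistableModel
  two_dvd : (2 : ℤ) ∣ W.Δ
  irreducible_three : W.ModRepIsIrreducible 3

/-- The strengthened 3-5 switch (area `curves`). -/
def SwitchInput : Prop := ∀ (W : WeierstrassCurve ℤ), W.Δ ≠ 0 → W.IsSemistableModel →
  (2 : ℤ) ∣ W.Δ → W.ModRepIsIrreducible 5 →
  ∃ W' : WeierstrassCurve ℤ, IsSwitchedModel W' ∧ ((5 : ℤ) ∣ W'.Δ ↔ (5 : ℤ) ∣ W.Δ) ∧
    ∀ ℓ : ℕ, ℓ.Prime → W.IsGoodPrimeFor ℓ → W'.IsGoodPrimeFor ℓ → ℓ ≠ 5 →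
      (5 : ℤ) ∣ (W'.apOfModel ℓ - W.apOfModel ℓ)

/-- The mod 3 family (area `curves`). -/
def FamilyInput : Prop := ∀ (W : WeierstrassCurve ℤ), IsSwitchedModel W →
  ∃ W' : WeierstrassCurve ℤ, TwoAdic.Curve.IsTwoAdicCurve W' ∧ ((3 : ℤ) ∣ W'.Δ ↔ (3 : ℤ) ∣ W.Δ) ∧
    ∀ ℓ : ℕ, ℓ.Prime → W.IsGoodPrimeFor ℓ → W'.IsGoodPrimeFor ℓ → ℓ ≠ 3 →
      (3 : ℤ) ∣ (W'.apOfModel ℓ - W.apOfModel ℓ)

/-- The two-adic modularity theorem (area `patch2`). -/
def TwoAdicInput : Prop := ∀ (W : WeierstrassCurve ℤ), TwoAdic.Curve.IsTwoAdicCurve W →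
  Mlc1IsModularModelOfExactConductorLevel W

/-- Modularity lifting at `3` and `5` in the case the route needs (area `lift`): the residual
level is squarefree and contains `p` exactly if the curve is bad at `p`. -/
def LiftingSquarefreeInput : Prop := ∀ (p : ℕ), p = 3 ∨ p = 5 →
  ∀ (W : WeierstrassCurve ℤ), W.Δ ≠ 0 → W.IsSemistableModel → W.ModRepIsIrreducible p →
  ∀ (M₀ : ℕ), 0 < M₀ → Squarefree M₀ → (p ∣ M₀ ↔ (p : ℤ) ∣ W.Δ) →
    W.IsResiduallyModularOfLevel p M₀ → Mlc1IsModularModelOfExactConductorLevel W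

/-- Milestone statement 9. -/
def IrreducibleInput : Prop := ∀ P : FreyPackage,
  Affine.Point.GaloisRepIsIrreducible (K := AlgebraicClosure ℚ) ℚ P.freyCurve P.p

/-- The frozen lifting statement implies the route case. -/
theorem LiftingSquarefreeInput.of_liftingInput (h : RT.Frey.LiftingInput) :
    LiftingSquarefreeInput := fun p hp W hΔ hW hirr M₀ hM₀ hsq _ hres =>
  have : NeZero M₀ := ⟨hM₀.ne'⟩
  have hsq' : ∀ q : ℕ, q.Prime → ¬ q ^ 2 ∣ M₀ := fun q hq h =>
    hq.not_isUnit (hsq q (by rwa [← sq]))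
  h p hp W hΔ hW hirr M₀ hres (hsq' p (by rcases hp with rfl | rfl <;> norm_num))
    fun q hq _ h3 => hsq' q hq ((pow_dvd_pow q (by norm_num)).trans h3)

end Fermat.Agent.Top
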