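import Fermat.Agent.Top.Inputs
import Fermat.Agent.EC.Reduction.Frey
import Fermat.Agent.Mazur.Small.Frey
import Fermat.Agent.EC.Torsion.Galois

/-!
# Modularity of the Frey curve at a conductor level
-/

set_option autoImplicit false

open WeierstrassCurve WeierstrassCurve.Affine WeierstrassCurve.Affine.Point
open CuspForm

namespace Fermat.Agent.Top

theorem residually_modular_of_congr {p : ℕ} (hp : p.Prime) {W W' : WeierstrassCurve ℤ}
    {N : ℕ} (hsupp : ∀ q : ℕ, q.Prime → (q ∣ N ↔ (q : ℤ) ∣ W'.Δ))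
    (hmod : W'.IsModularModelOfLevel N)
    (hcong : ∀ ℓ : ℕ, ℓ.Prime → W.IsGoodPrimeFor ℓ → W'.IsGoodPrimeFor ℓ → ℓ ≠ p →
      (p : ℤ) ∣ (W'.apOfModel ℓ - W.apOfModel ℓ)) :
    W.IsResiduallyModularOfLevel p N := by
  obtain ⟨f, hf, hfW⟩ := hmod
  obtain ⟨𝔪, h𝔪, hpm⟩ := FLTPrelim.exists_maximalIdeal_natCast_prime_mem hp
  refine ⟨f, 𝔪, hf, h𝔪, hpm, fun ℓ hℓ hgood hℓN hℓp => ?_⟩
  have hgood' : W'.IsGoodPrimeFor ℓ := fun h => hℓN ((hsupp ℓ hℓ).2 h)
  obtain ⟨k, hk⟩ := hcong ℓ hℓ hgood hgood' hℓp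
  refine ⟨(W'.apOfModel ℓ : integralClosure ℤ ℂ), ?_, ?_⟩
  · rw [hfW ℓ hℓ hgood' hℓN]
    norm_cast
  · rw [← Int.cast_sub, hk]
    push_cast
    exact Ideal.mul_mem_right _ _ hpm

theorem switched_isExact (hfam : FamilyInput) (htwo : TwoAdicInput) (hlift : LiftingSquarefreeInput)
    (W : WeierstrassCurve ℤ) (hW : IsSwitchedModel W) :
    Mlc1IsModularModelOfExactConductorLevel W := by
  obtain ⟨W'', hW'', h3, hcong⟩ := hfam W hW
  obtain ⟨N, hN, hsq, hsupp, hmod⟩ := htwo W'' hW''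
  exact hlift 3 (Or.inl rfl) W hW.ne_zero hW.semistable hW.irreducible_three N hN hsq
    ((hsupp 3 Nat.prime_three).trans h3)
    (residually_modular_of_congr Nat.prime_three hsupp hmod hcong)

/-- Modularity of a semistable curve, multiplicative at `2`, with irreducible mod 5
representation. -/
theorem exact_of_two_dvd (hsw : SwitchInput) (hfam : FamilyInput) (htwo : TwoAdicInput)
    (hlift : LiftingSquarefreeInput) (W : WeierstrassCurve ℤ) (hΔ : W.Δ ≠ 0)
    (hW : W.IsSemistableModel) (h2 : (2 : ℤ) ∣ W.Δ) (h5 : W.ModRepIsIrreducible 5) :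
    Mlc1IsModularModelOfExactConductorLevel W := by
  obtain ⟨W', hW', h55, hcong⟩ := hsw W hΔ hW h2 h5
  obtain ⟨N, hN, hsq, hsupp, hmod⟩ := switched_isExact hfam htwo hlift W' hW'
  exact hlift 5 (Or.inr rfl) W hΔ hW h5 N hN hsq
    ((hsupp 5 Nat.prime_five).trans h55)
    (residually_modular_of_congr Nat.prime_five hsupp hmod hcong)

theorem frey_semistable (P : FreyPackage) : P.freyCurveInt.IsSemistableModel :=
  fun _ hq hΔ => EC.Reduction.Frey.not_dvd_c₄ P hq
    (by_contra fun h => EC.Reduction.Frey.not_dvd_Δ P hq h hΔ)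

theorem frey_isIntegralModel (P : FreyPackage) : P.freyCurveInt.IsIntegralModelOf P.freyCurve :=
  ⟨1, by rw [one_smul, EC.Reduction.Frey.freyCurve_eq_map]⟩

theorem frey_two_dvd (P : FreyPackage) : (2 : ℤ) ∣ P.freyCurveInt.Δ := by
  have h2 : (2 : ℤ) ∣ P.a * P.b * P.c :=
    ((ZMod.intCast_zmod_eq_zero_iff_dvd P.b 2).mp P.hb2).mul_left P.a |>.mul_right P.c
  have h : (2 : ℤ) ^ 8 * 2 ∣ 2 ^ 8 * P.freyCurveInt.Δ := by
    rw [EC.Reduction.Frey.Δ_eq, ← pow_succ]
    exact (pow_dvd_pow_of_dvd h2 9).trans (pow_dvd_pow _ (by have := P.hp5; omega))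
  exact (mul_dvd_mul_iff_left (by norm_num)).mp h

theorem frey_irreducible_five (P : FreyPackage) : P.freyCurveInt.ModRepIsIrreducible 5 := by
  unfold WeierstrassCurve.ModRepIsIrreducible
  rw [← EC.Reduction.Frey.freyCurve_eq_map]
  have := Mazur.Small.frey_isElliptic P
  refine ⟨?_, fun N hst => ?_⟩
  · have h := EC.Torsion.natCard_torsionBy_algebraicClosureRat P.freyCurve (n := 5) (by norm_num)
    have := Nat.finite_of_card_ne_zero (h.trans_ne (by norm_num))
    exact (Finite.one_lt_card_iff_nontrivial).1 (lt_of_lt_of_eq (by norm_num) h.symm)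
  · by_contra hN
    rw [not_or] at hN
    exact Mazur.Small.no_stable_line_five (Mazur.Small.frey_delta_square P) hst hN.1 hN.2

theorem frey_exact (hsw : SwitchInput) (hfam : FamilyInput) (htwo : TwoAdicInput)
    (hlift : LiftingSquarefreeInput) (P : FreyPackage) :
    Mlc1IsModularModelOfExactConductorLevel P.freyCurveInt :=
  exact_of_two_dvd hsw hfam htwo hlift _ (EC.Reduction.Frey.Δ_ne_zero P) (frey_semistable P)
    (frey_two_dvd P) (frey_irreducible_five P)

/-- The statement of milestone 4. -/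
theorem freyCurve_isModular (hsw : SwitchInput) (hfam : FamilyInput) (htwo : TwoAdicInput)
    (hlift : LiftingSquarefreeInput) (P : FreyPackage) : P.freyCurve.IsModular := by
  obtain ⟨N, hN, -, -, hmod⟩ := frey_exact hsw hfam htwo hlift P
  exact ⟨P.freyCurveInt, frey_isIntegralModel P, N, hN, hmod⟩

/-- The statement of milestone 6. -/
theorem exists_conductorLevel (hsw : SwitchInput) (hfam : FamilyInput) (htwo : TwoAdicInput)
    (hlift : LiftingSquarefreeInput) (P : FreyPackage) :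
    ∃ N : ℕ, P.IsConductorLevel N ∧ P.ModularRepOfLevel N := by
  obtain ⟨N, hN, hsq, hsupp, f, hf, hfW⟩ := frey_exact hsw hfam htwo hlift P
  obtain ⟨𝔪, h𝔪, hpm⟩ := FLTPrelim.exists_maximalIdeal_natCast_prime_mem P.pp
  refine ⟨N, ⟨hN, hsq, fun q hq hqN => by_contra fun h =>
    EC.Reduction.Frey.not_dvd_Δ P hq h ((hsupp q hq).1 hqN)⟩, f, P.freyCurveInt, 𝔪, hf,
    frey_isIntegralModel P, h𝔪, hpm, fun ℓ hℓ hgood hℓN _ => ?_⟩
  refine ⟨(P.freyCurveInt.apOfModel ℓ : integralClosure ℤ ℂ), ?_, by rw [sub_self]; exact zero_mem _⟩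
  rw [hfW ℓ hℓ hgood hℓN]
  norm_cast

end Fermat.Agent.Top
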