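import Fermat.Agent.Top.Modular
import Fermat.Agent.TwoAdic.Curve.Main
import Fermat.Agent.TwoAdic.Patch.TwoAdicTheorem
import Fermat.Agent.RT.InertiaTW.FunFamilyExists

/-!
The inputs of the two-adic route that are proved.
-/

set_option autoImplicit false

namespace Fermat.Agent.Top

theorem switch_holds : SwitchInput := TwoAdic.Curve.switchInput

theorem family_holds : FamilyInput := TwoAdic.Curve.familyInput

theorem twoAdic_holds : TwoAdicInput :=
  TwoAdic.Patch.twoAdicInput_of_families fun _ _ _ _ _ _ hR _ hA m _ _ _ x hx =>
    RT.InertiaTW.exists_funFamily hA hR m x hx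

end Fermat.Agent.Top
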